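import Fermat.Agent.GS.Export
import Fermat.Agent.GS.Conc.Model

/-!
# Project GS: the inputs `InputU`, `InputK` of GS-FW (`FW/Final.lean`) from the outputs of GS-INST
(`InstOut`) and of the bridge GS-CONC-B (`BridgeOut`).
-/

set_option autoImplicit false

noncomputable section

namespace Fermat.Agent.GS

open Fermat.Agent.GR Fermat.Agent.GR.E ModularCurve Fermat.Agent.GT.EMB

/-- the auxiliary prime (`= FW.aux q`). -/
def auxPrime (q : ℕ) : ℕ := if q = 2 then 3 else 2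

/-- OUTPUT of GS-INST: the nodal model exists at every level `q * N1`, `q ∤ N1`, `aux q ∣ N1`. -/
def InstOut : Prop :=
  ∀ (A : ValuationSubring Qb) (q N1 : ℕ), N1 ≠ 0 → q.Prime → ¬ q ∣ N1 → auxPrime q ∣ N1 →
    A.LiesOverPrime q → ∃ H : LaurentSeries ℤ, HasNodalModel A q N1 H

/-- OUTPUT of the bridge GS-CONC-B. -/
def BridgeOut : Prop :=
  ∀ (A : ValuationSubring Qb) (q N1 n : ℕ) (H : LaurentSeries ℤ), N1 ≠ 0 → q.Prime → ¬ q ∣ N1 →
    A.LiesOverPrime q → HasNodalModel A q N1 H → ¬ q ∣ n → 0 < n →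
      NodalInertia q N1 n A ∧ NodalFrob q N1 n A

/-- `= FW.InputU`. -/
theorem inputU (hI : InstOut) (hB : BridgeOut) :
    ∀ (N : ℕ) [NeZero N] (q n : ℕ) (A : ValuationSubring Qbar), q.Prime → q ∣ N → ¬ q ^ 2 ∣ N →
      ¬ q ∣ n → 0 < n → (if q = 2 then 3 else 2) ∣ N → A.LiesOverPrime q → FW.UnipAt N n A := by
  intro N _ q n A hq hqN hq2 hqn hn haux hA
  obtain ⟨N1, rfl⟩ := hqN
  have hN1 : N1 ≠ 0 := fun h => NeZero.ne (q * N1) (by rw [h, mul_zero])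
  have hqN1 : ¬ q ∣ N1 := fun h => hq2 (by rw [pow_two]; exact Nat.mul_dvd_mul_left q h)
  have haux' : auxPrime q ∣ N1 := by
    unfold auxPrime
    have hcop : Nat.Coprime (if q = 2 then 3 else 2) q := by
      split_ifs with h
      · subst h; decide
      · exact (Nat.coprime_primes Nat.prime_two hq).2 (Ne.symm h)
    exact hcop.dvd_of_dvd_mul_left haux
  obtain ⟨H, hH⟩ := hI A q N1 hN1 hq hqN1 haux' hA
  have h1 := (hB A q N1 n H hN1 hq hqN1 hA hH hqn hn).1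
  have := unipAt_of_nodalInertia ((Nat.Prime.coprime_iff_not_dvd hq).2 hqN1) hn h1
  rwa [mul_comm N1 q] at this

theorem exists_swap_aux {q N1 : ℕ} (hN1 : N1 ≠ 0) (hq : q.Prime) (hqN1 : ¬ q ∣ N1) (M : ℕ)
    (hM : M = q * N1) :
    ∃ w : FF Qbar M ≃ₐ[Qbar] FF Qbar M,
      ∀ (d : ℕ) [NeZero d] [NeZero (d * q)], d ∣ N1 → ∀ x y : FF Qbar M,
        (x : LaurentSeries Qbar) = qExpand Qbar d (jqModC Qbar) →
        (y : LaurentSeries Qbar) = qExpand Qbar (d * q) (jqModC Qbar) → w x = y ∧ w y = x := by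
  subst hM
  have : NeZero (q * N1) := ⟨mul_ne_zero hq.ne_zero hN1⟩
  obtain ⟨ι⟩ := nonempty_Qbar_hom
  have hcop : q.Coprime N1 := (Nat.Prime.coprime_iff_not_dvd hq).2 hqN1
  have hw := isWQ_wQ (K := Qbar) ι hcop
  refine ⟨wQ Qbar q N1, ?_⟩
  intro d _ _ hd x y hx hy
  have : NeZero (1 * d) := ⟨by rw [one_mul]; exact NeZero.ne d⟩
  have : NeZero (q * d) := ⟨by rw [mul_comm]; exact NeZero.ne (d * q)⟩
  have h1 : wQ Qbar q N1 x = y := by
    apply Subtype.ext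
    rw [hw 1 q d (one_mul q) hd x (by rw [hx]; exact qExpand_congr (one_mul d).symm _), hy]
    exact qExpand_congr (mul_comm q d) _
  refine ⟨h1, ?_⟩
  rw [← h1]
  exact hw.invol ι hcop x

/-- `= FW.InputK`. -/
theorem inputK (hI : InstOut) (hB : BridgeOut) :
    ∀ (N₁ : ℕ) [NeZero N₁] (q n : ℕ) (A : ValuationSubring Qbar), q.Prime → ¬ q ∣ N₁ →
      ¬ q ∣ n → 0 < n → (if q = 2 then 3 else 2) ∣ N₁ → A.LiesOverPrime q →
        ∃ w : FF Qbar (N₁ * q) ≃ₐ[Qbar] FF Qbar (N₁ * q),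
          FW.IsAtkinLehner N₁ q w ∧ FW.KAt N₁ q n A w := by
  intro N₁ _ q n A hq hqN1 hqn hn haux hA
  have hN1 : N₁ ≠ 0 := NeZero.ne N₁
  obtain ⟨H, hH⟩ := hI A q N₁ hN1 hq hqN1 haux hA
  have h2 := (hB A q N₁ n H hN1 hq hqN1 hA hH hqn hn).2
  obtain ⟨w, hw⟩ := exists_swap_aux hN1 hq hqN1 (N₁ * q) (mul_comm N₁ q)
  exact ⟨w, hw, kAt_of_nodalFrob hq hn h2 w hw⟩

end Fermat.Agent.GS
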