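import Fermat.Agent.GS.WQ
import Fermat.Agent.GS.FW.Defs
import Fermat.Agent.GR.I.Level

/-!
# Project GS: from the exports `NodalInertia`, `NodalFrob` of GS-CONC to the inputs `UnipAt`, `KAt`
of GS-FW.
-/

set_option autoImplicit false

noncomputable section

namespace Fermat.Agent.GS

open Fermat.Agent.GR Fermat.Agent.GR.E ModularCurve Fermat.Agent.GT.EMB

variable {N n : ℕ} {A : ValuationSubring Qbar}

theorem trivAt_of_powAt (hn : 0 < n) {y : LaurentSeries Qbar} (h : FW.PowAt A N n y) :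
    TrivAt N n A y := by
  obtain ⟨z, hz, hz0, c, a, b, hc, ha, hb, hpa, hib, hab, hy⟩ := h
  obtain ⟨γ, hγ⟩ := IsAlgClosed.exists_pow_nat_eq c hn
  have hγ0 : γ ≠ 0 := by
    rintro rfl
    rw [zero_pow hn.ne'] at hγ
    exact hc hγ.symm
  have hC : (HahnSeries.C γ : LaurentSeries Qbar) ≠ 0 := by simpa using hγ0
  refine ⟨a, b, ha, hb, hpa, hib, hab, z / HahnSeries.C γ, div_mem hz (C_mem_FF γ),
    div_ne_zero hz0 hC, ?_⟩
  rw [div_pow, ← map_pow, hγ, ← mul_div_assoc, hy]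
  have hCc : (HahnSeries.C c : LaurentSeries Qbar) ≠ 0 := by simpa using hc
  field_simp

theorem powAt_of_trivAt {y : LaurentSeries Qbar} (h : TrivAt N n A y) : FW.PowAt A N n y := by
  obtain ⟨a, b, ha, hb, hpa, hib, hab, z, hz, hz0, hy⟩ := h
  exact ⟨z, hz, hz0, 1, a, b, one_ne_zero, ha, hb, hpa, hib, hab, by rw [← hy]; simp⟩

/-- `(σ - 1) u` is trivial at the Gauss valuation, for `σ` in the inertia group. -/
theorem trivAt_gal_div (hn : 0 < n) {σ : Qbar ≃ₐ[ℚ] Qbar} (hσ : σ ∈ A.inertiaSubgroupIn ℚ)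
    {u : LaurentSeries Qbar} (hu : u ∈ FF Qbar N) (h0 : u ≠ 0) : TrivAt N n A (gal σ u / u) := by
  obtain ⟨τ, hτ, rfl⟩ := hσ
  obtain ⟨κ, F, G, hκ, hFF, hGF, hF, hG, hu_eq⟩ := exists_normalized A N hu h0
  obtain ⟨f, rfl, hf⟩ := (isPrim_iff A).mp hF
  obtain ⟨g, rfl, hg⟩ := (isPrim_iff A).mp hG
  set σ : Qbar ≃ₐ[ℚ] Qbar := (A.decompositionSubgroup ℚ).subtype τ with hσdef
  have hσf : gal σ (incl A f) = incl A (coeffMap (actA A τ) f) := (incl_coeffMap_actA A τ f).symm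
  have hσg : gal σ (incl A g) = incl A (coeffMap (actA A τ) g) := (incl_coeffMap_actA A τ g).symm
  have hrf := red_actA_of_mem_inertia A τ hτ f
  have hrg := red_actA_of_mem_inertia A τ hτ g
  have hne : ∀ x : LaurentSeries A, red A x ≠ 0 → incl A x ≠ 0 := by
    intro x hx h0
    apply hx
    rw [show x = 0 from incl_injective A (by rw [h0, map_zero]), map_zero]
  have hσκ : σ κ ≠ 0 := (map_ne_zero _).mpr hκ
  obtain ⟨γ, hγ⟩ := IsAlgClosed.exists_pow_nat_eq (κ / σ κ) hn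
  have hγ0 : γ ≠ 0 := by
    rintro rfl
    rw [zero_pow hn.ne'] at hγ
    exact (div_ne_zero hκ hσκ) hγ.symm
  have hC : (HahnSeries.C γ : LaurentSeries Qbar) ≠ 0 := by simpa using hγ0
  refine ⟨incl A (coeffMap (actA A τ) f * g), incl A (f * coeffMap (actA A τ) g), ?_, ?_, ?_, ?_, ?_,
    HahnSeries.C γ, C_mem_FF γ, hC, ?_⟩
  · rw [map_mul, ← hσf]
    exact mul_mem (GR.coeffMap_mem_FF _ hFF) hGF
  · rw [map_mul, ← hσg]
    exact mul_mem hFF (GR.coeffMap_mem_FF _ hGF)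
  · rw [isPrim_incl_iff, map_mul, hrf]
    exact mul_ne_zero hf hg
  · exact (isInt_iff A).mpr ⟨_, rfl⟩
  · rw [cong_incl_iff, map_mul, map_mul, hrf, hrg]
  · rw [← map_pow, hγ, map_mul, map_mul, ← hσf, ← hσg, hu_eq, map_mul, map_div₀, gal_C, map_div₀]
    have h1 := hne f hf
    have h2 := hne g hg
    have h3 : gal σ (incl A f) ≠ 0 := (map_ne_zero _).mpr h1
    have h4 : gal σ (incl A g) ≠ 0 := (map_ne_zero _).mpr h2
    have h5 : (HahnSeries.C κ : LaurentSeries Qbar) ≠ 0 := by simpa using hκ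
    have h6 : (HahnSeries.C (σ κ) : LaurentSeries Qbar) ≠ 0 := by simpa using hσκ
    field_simp

/-- (U), general form: `(τ - 1)(σ - 1) = 0` on Kummer classes, `σ τ` in the inertia group. -/
theorem unip_of_nodalInertia {q N1 : ℕ} [NeZero (q * N1)] (hcop : q.Coprime N1) (hn : 0 < n)
    (h : NodalInertia q N1 n A) {σ τ : Qbar ≃ₐ[ℚ] Qbar} (hσ : σ ∈ A.inertiaSubgroupIn ℚ)
    (hτ : τ ∈ A.inertiaSubgroupIn ℚ) {u : LaurentSeries Qbar}
    (hu : IsKummer (N := q * N1) n u) :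
    KummerEquiv (q * N1) n (gal σ u * gal τ u) (gal τ (gal σ u) * u) := by
  obtain ⟨ι⟩ := nonempty_Qbar_hom
  have hw := isWQ_wQ (K := Qbar) ι hcop
  set w := wQ Qbar q N1
  let u' : FF Qbar (q * N1) := ⟨u, hu.mem⟩
  have hu'0 : u' ≠ 0 := fun h0 => hu.ne_zero (congrArg Subtype.val h0)
  let y : FF Qbar (q * N1) := mapFF (σ : Qbar →+* Qbar) (q * N1) u' / u'
  have hy : (y : LaurentSeries Qbar) = gal σ u / u := rfl
  have hK : IsKummer (N := q * N1) n (y : LaurentSeries Qbar) := by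
    rw [hy]
    exact (I.galStable n σ u hu).div hu
  have hwy : ((w y : FF Qbar (q * N1)) : LaurentSeries Qbar) =
      gal σ (w u' : FF Qbar (q * N1)) / (w u' : FF Qbar (q * N1)) := by
    have : w y = w (mapFF (σ : Qbar →+* Qbar) (q * N1) u') / w u' := map_div₀ w _ _
    rw [this]
    show ((w (mapFF (σ : Qbar →+* Qbar) (q * N1) u') : FF Qbar (q * N1)) : LaurentSeries Qbar) /
      (w u' : FF Qbar (q * N1)) = _
    rw [hw.gal_comm hcop σ u']
  have hwu0 : ((w u' : FF Qbar (q * N1)) : LaurentSeries Qbar) ≠ 0 := by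
    intro h0
    exact ((map_ne_zero w).mpr hu'0) (Subtype.ext h0)
  obtain ⟨z, hz, hz0, hzeq⟩ := h w hw y hK (by rw [hy]; exact trivAt_gal_div hn hσ hu.mem hu.ne_zero)
    (by rw [hwy]; exact trivAt_gal_div hn hσ (w u').2 hwu0) τ hτ
  refine ⟨z, hz, hz0, ?_⟩
  rw [hy, map_div₀] at hzeq
  have h1 : gal τ u ≠ 0 := (map_ne_zero _).mpr hu.ne_zero
  have h2 := hu.ne_zero
  field_simp at hzeq
  linear_combination hzeq

/-- (U) in the shape requested by GS-FW. -/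
theorem unipAt_of_nodalInertia {q N1 : ℕ} [NeZero (q * N1)] (hcop : q.Coprime N1) (hn : 0 < n)
    (h : NodalInertia q N1 n A) : FW.UnipAt (N1 * q) n A := by
  intro σ hσ u hu
  rw [mul_comm N1 q] at hu ⊢
  have := unip_of_nodalInertia hcop hn h hσ hσ hu
  rwa [← pow_two] at this

/-- `IsAtkinLehner` (GS-FW) at a level `M = q * N1`. -/
theorem isWQ_of_swap {q N1 : ℕ} (hq : q.Prime) (w : FF Qbar (q * N1) ≃ₐ[Qbar] FF Qbar (q * N1))
    (hw : ∀ (d : ℕ) [NeZero d] [NeZero (d * q)], d ∣ N1 → ∀ x y : FF Qbar (q * N1),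
      (x : LaurentSeries Qbar) = qExpand Qbar d (jqModC Qbar) →
      (y : LaurentSeries Qbar) = qExpand Qbar (d * q) (jqModC Qbar) → w x = y ∧ w y = x) :
    IsWQ Qbar q N1 w := by
  intro a b d _ _ hab hd x hx
  have hd0 : d ≠ 0 := fun h0 => NeZero.ne (a * d) (by rw [h0, mul_zero])
  have : NeZero d := ⟨hd0⟩
  have : NeZero (d * q) := ⟨mul_ne_zero hd0 hq.ne_zero⟩
  let x1 : FF Qbar (q * N1) := ⟨qExpand Qbar d (jqModC Qbar),
    jqModCd_mem_full Qbar (q * N1) (hd.trans (Dvd.intro_left q rfl))⟩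
  let x2 : FF Qbar (q * N1) := ⟨qExpand Qbar (d * q) (jqModC Qbar),
    jqModCd_mem_full Qbar (q * N1) (by rw [mul_comm d q]; exact Nat.mul_dvd_mul_left q hd)⟩
  obtain ⟨h1, h2⟩ := hw d hd x1 x2 rfl rfl
  rcases (Nat.dvd_prime hq).1 (Dvd.intro b hab) with rfl | rfl
  · have hb : b = q := by simpa using hab
    subst hb
    have hx1 : x = x1 := Subtype.ext (by rw [hx]; exact qExpand_congr (one_mul d) _)
    rw [hx1, h1]
    exact qExpand_congr (mul_comm d b) _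
  · have hb : b = 1 := by
      have := hq.pos
      exact Nat.eq_of_mul_eq_mul_left this (by rw [hab, mul_one])
    subst hb
    have hx2 : x = x2 := Subtype.ext (by rw [hx]; exact qExpand_congr (mul_comm a d) _)
    rw [hx2, h2]
    exact qExpand_congr (one_mul d).symm _

theorem kAt_aux {q N1 : ℕ} (hq : q.Prime) (hn : 0 < n) (h : NodalFrob q N1 n A) (M : ℕ)
    (hM : M = q * N1) (w : FF Qbar M ≃ₐ[Qbar] FF Qbar M)
    (hw : ∀ (d : ℕ) [NeZero d] [NeZero (d * q)], d ∣ N1 → ∀ x y : FF Qbar M,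
      (x : LaurentSeries Qbar) = qExpand Qbar d (jqModC Qbar) →
      (y : LaurentSeries Qbar) = qExpand Qbar (d * q) (jqModC Qbar) → w x = y ∧ w y = x)
    (σ : Qbar ≃ₐ[ℚ] Qbar) (hσ : A.IsFrobeniusAt σ q) (y : FF Qbar M)
    (hy : IsKummer (N := M) n (y : LaurentSeries Qbar))
    (h1 : FW.PowAt A M n (y : LaurentSeries Qbar))
    (h2 : FW.PowAt A M n ((w y : FF Qbar M) : LaurentSeries Qbar)) :
    KummerEquiv M n 1 (FW.opC q σ (y : LaurentSeries Qbar)) := by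
  subst hM
  obtain ⟨z, hz, hz0, hzeq⟩ := h w (isWQ_of_swap hq w hw) y hy (trivAt_of_powAt hn h1)
    (trivAt_of_powAt hn h2) σ hσ
  refine ⟨z, hz, hz0, ?_⟩
  rw [I.gal_mul_apply] at hzeq
  unfold FW.opC
  rw [hzeq, one_mul]
  have := pow_ne_zero (q ^ 2) hy.ne_zero
  field_simp

/-- (K) in the shape requested by GS-FW. -/
theorem kAt_of_nodalFrob {q N1 : ℕ} (hq : q.Prime) (hn : 0 < n) (h : NodalFrob q N1 n A)
    (w : FF Qbar (N1 * q) ≃ₐ[Qbar] FF Qbar (N1 * q)) (hw : FW.IsAtkinLehner N1 q w) :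
    FW.KAt N1 q n A w := by
  intro σ hσ y hy h1 h2
  exact kAt_aux hq hn h (N1 * q) (mul_comm N1 q) w hw σ hσ y hy h1 h2

end Fermat.Agent.GS
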