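import Fermat.Agent.GR.F.Main
import Fermat.Agent.GR.E.Model

/-!
# Project GS: the interface between GS-CONC (geometry at `q ∥ N`) and GS-FW (Frobenius / wiring)

Only definitions.  `N = Q * N1` with `Q` prime to `N1`.

* `IsWQ K Q N1 w` : `w` is the Atkin-Lehner involution `w_Q` of `FF K (Q * N1)`:
  `j(t^(a d)) ↦ j(t^(b d))` for `a b = Q`, `d ∣ N1`.
* `TrivAt N n A y` : up to an `n`-th power, `y ≡ 1` at the Gauss valuation attached to `A`.
* `NodalInertia`, `NodalFrob` : the two exports of GS-CONC.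
-/

set_option autoImplicit false

noncomputable section

namespace Fermat.Agent.GS

open Fermat.Agent.GR ModularCurve

/-- `w` is the Atkin-Lehner involution `w_Q` of `FF K (Q * N1)`. -/
def IsWQ (K : Type*) [Field K] (Q N1 : ℕ) (w : FF K (Q * N1) ≃ₐ[K] FF K (Q * N1)) : Prop :=
  ∀ (a b d : ℕ) [NeZero (a * d)] [NeZero (b * d)], a * b = Q → d ∣ N1 →
    ∀ x : FF K (Q * N1), (x : LaurentSeries K) = qExpand K (a * d) (jqModC K) →
      ((w x : FF K (Q * N1)) : LaurentSeries K) = qExpand K (b * d) (jqModC K)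

/-- Up to an `n`-th power of `FF Q̄ N`, `y` is a quotient `a / b` with `a ≡ b` modulo `𝔪_A`, `a`
primitive: the class of `y` is trivial at the Gauss valuation `v_∞` attached to `A`. -/
def TrivAt (N n : ℕ) (A : ValuationSubring Qbar) (y : LaurentSeries Qbar) : Prop :=
  ∃ a b : LaurentSeries Qbar, a ∈ FF Qbar N ∧ b ∈ FF Qbar N ∧ IsPrim A a ∧ IsInt A b ∧
    Cong A a b ∧ KummerEquiv N n y (a / b)

/-- (export of GS-CONC) a Kummer class which is trivial on both components of the fibre at `A` is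
fixed by the inertia group. -/
def NodalInertia (q N1 n : ℕ) (A : ValuationSubring Qbar) : Prop :=
  ∀ w : FF Qbar (q * N1) ≃ₐ[Qbar] FF Qbar (q * N1), IsWQ Qbar q N1 w →
    ∀ y : FF Qbar (q * N1), IsKummer (N := q * N1) n (y : LaurentSeries Qbar) →
      TrivAt (q * N1) n A y → TrivAt (q * N1) n A (w y : FF Qbar (q * N1)) →
      ∀ τ : Qbar ≃ₐ[ℚ] Qbar, τ ∈ A.inertiaSubgroupIn ℚ →
        KummerEquiv (q * N1) n (y : LaurentSeries Qbar) (gal τ y)

/-- (export of GS-CONC) on a Kummer class which is trivial on both components of the fibre at `A`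
the square of a Frobenius element is multiplication by `q ^ 2`. -/
def NodalFrob (q N1 n : ℕ) (A : ValuationSubring Qbar) : Prop :=
  ∀ w : FF Qbar (q * N1) ≃ₐ[Qbar] FF Qbar (q * N1), IsWQ Qbar q N1 w →
    ∀ y : FF Qbar (q * N1), IsKummer (N := q * N1) n (y : LaurentSeries Qbar) →
      TrivAt (q * N1) n A y → TrivAt (q * N1) n A (w y : FF Qbar (q * N1)) →
      ∀ φ : Qbar ≃ₐ[ℚ] Qbar, A.IsFrobeniusAt φ q →
        KummerEquiv (q * N1) n ((y : LaurentSeries Qbar) ^ (q ^ 2)) (gal (φ * φ) y)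

end Fermat.Agent.GS
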