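import Fermat.Agent.GS.Iface
import Fermat.Agent.GT.EMB.Level

/-!
# Project GS: `IsWQ K Q N1 w ↔ w = GT.EMB.wQ K Q N1`, and the resulting API for `IsWQ`.
-/

set_option autoImplicit false

noncomputable section

namespace Fermat.Agent.GS

open Fermat.Agent.GR Fermat.Agent.GR.E ModularCurve Fermat.Agent.GT.EMB

variable {K : Type} [Field K] {Q N1 : ℕ}

theorem isWQ_iff_gen [NeZero (Q * N1)] (hcop : Q.Coprime N1)
    (w : FF K (Q * N1) ≃ₐ[K] FF K (Q * N1)) :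
    IsWQ K Q N1 w ↔ ∀ d hd, (w (gen K (Q * N1) d hd) : LaurentSeries K) = jd K (alIdx Q d) := by
  have hQN : Q * N1 ≠ 0 := NeZero.ne _
  constructor
  · intro h d hd
    obtain ⟨a, b, ha, hb, rfl⟩ := ALIdx_exists_mul hd
    obtain ⟨c, rfl⟩ := ha
    have ha0 : a ≠ 0 := fun h0 => hQN (by rw [h0]; simp)
    have hc0 : c ≠ 0 := fun h0 => hQN (by rw [h0]; simp)
    have hb0 : b ≠ 0 := fun h0 => hQN (by
      rw [h0] at hb; rw [Nat.eq_zero_of_zero_dvd hb, mul_zero])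
    have : NeZero (a * b) := ⟨mul_ne_zero ha0 hb0⟩
    have : NeZero (c * b) := ⟨mul_ne_zero hc0 hb0⟩
    rw [alIdx_mul hcop (Dvd.intro c rfl) hb, Nat.mul_div_cancel_left c (Nat.pos_of_ne_zero ha0),
      jd_eq]
    exact h a c b rfl hb _ (by rw [coe_gen, jd_eq])
  · intro h a b d _ _ hab hd x hx
    have hdvd : a * d ∣ Q * N1 := Nat.mul_dvd_mul (Dvd.intro b hab) hd
    have hxg : x = gen K (Q * N1) (a * d) hdvd := Subtype.ext (by rw [hx, coe_gen, jd_eq])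
    have ha0 : a ≠ 0 := fun h0 => hQN (by rw [← hab, h0]; simp)
    rw [hxg, h, alIdx_mul hcop (Dvd.intro b hab) hd, ← hab,
      Nat.mul_div_cancel_left b (Nat.pos_of_ne_zero ha0), jd_eq]

theorem isWQ_wQ (ι : K →+* ℂ) [NeZero (Q * N1)] (hcop : Q.Coprime N1) :
    IsWQ K Q N1 (wQ K Q N1) :=
  (isWQ_iff_gen hcop _).2 (wQ_gen ι Q N1 hcop)

theorem IsWQ.eq_wQ (ι : K →+* ℂ) [NeZero (Q * N1)] (hcop : Q.Coprime N1)
    {w : FF K (Q * N1) ≃ₐ[K] FF K (Q * N1)} (hw : IsWQ K Q N1 w) : w = wQ K Q N1 := by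
  have h : (w : FF K (Q * N1) →ₐ[K] FF K (Q * N1)) = (wQ K Q N1 : FF K (Q * N1) →ₐ[K] _) := by
    refine algHom_ext_gen (Q * N1) _ _ fun d hd => Subtype.ext ?_
    have h1 := (isWQ_iff_gen hcop w).1 hw d hd
    have h2 := wQ_gen ι Q N1 hcop d hd
    exact h1.trans h2.symm
  exact AlgEquiv.ext fun u => congrArg (fun f : FF K (Q * N1) →ₐ[K] FF K (Q * N1) => f u) h

theorem IsWQ.invol (ι : K →+* ℂ) [NeZero (Q * N1)] (hcop : Q.Coprime N1)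
    {w : FF K (Q * N1) ≃ₐ[K] FF K (Q * N1)} (hw : IsWQ K Q N1 w) (u : FF K (Q * N1)) :
    w (w u) = u := by
  rw [hw.eq_wQ ι hcop]
  exact wQ_wQ ι Q N1 hcop u

/-- on the functions of level `N1`, `w_Q` is `t ↦ t^Q`. -/
theorem IsWQ.apply_of_mem (ι : K →+* ℂ) [NeZero Q] [NeZero (Q * N1)] (hcop : Q.Coprime N1)
    {w : FF K (Q * N1) ≃ₐ[K] FF K (Q * N1)} (hw : IsWQ K Q N1 w) (u : FF K (Q * N1))
    (hu : (u : LaurentSeries K) ∈ FF K N1) : (w u : LaurentSeries K) = qExpand K Q u := by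
  rw [hw.eq_wQ ι hcop]
  exact wQ_of_mem ι Q N1 hcop u hu

/-- `w_Q` commutes with field homomorphisms on the coefficients. -/
theorem IsWQ.mapFF_comm {K' : Type} [Field K'] (ι' : K' →+* ℂ) (σ : K →+* K') [NeZero (Q * N1)]
    (hcop : Q.Coprime N1) {w : FF K (Q * N1) ≃ₐ[K] FF K (Q * N1)} (hw : IsWQ K Q N1 w)
    {w' : FF K' (Q * N1) ≃ₐ[K'] FF K' (Q * N1)} (hw' : IsWQ K' Q N1 w') (u : FF K (Q * N1)) :
    mapFF σ (Q * N1) (w u) = w' (mapFF σ (Q * N1) u) := by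
  rw [hw.eq_wQ (ι'.comp σ) hcop, hw'.eq_wQ ι' hcop]
  exact mapFF_wQ ι' σ Q N1 hcop u

/-- an embedding `Q̄ → ℂ`. -/
theorem nonempty_Qbar_hom : Nonempty (Qbar →+* ℂ) :=
  ⟨(IsAlgClosed.lift (R := ℚ) (S := Qbar) (M := ℂ) : Qbar →ₐ[ℚ] ℂ).toRingHom⟩

/-- `w_Q` commutes with the Galois action on the coefficients. -/
theorem IsWQ.gal_comm [NeZero (Q * N1)] (hcop : Q.Coprime N1)
    {w : FF Qbar (Q * N1) ≃ₐ[Qbar] FF Qbar (Q * N1)} (hw : IsWQ Qbar Q N1 w)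
    (σ : Qbar ≃ₐ[ℚ] Qbar) (u : FF Qbar (Q * N1)) :
    ((w (mapFF (σ : Qbar →+* Qbar) (Q * N1) u) : FF Qbar (Q * N1)) : LaurentSeries Qbar) =
      gal σ (w u : FF Qbar (Q * N1)) := by
  obtain ⟨ι⟩ := nonempty_Qbar_hom
  rw [← hw.mapFF_comm ι (σ : Qbar →+* Qbar) hcop hw u]
  rfl

end Fermat.Agent.GS
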