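import Fermat.Agent.GS.FW.Final
import Fermat.Agent.GS.Inputs
import Fermat.Agent.GR.I.Final
import Fermat.Agent.GR.I.CharTheoryMk
import Fermat.Agent.GR.D.Top.Main
import Fermat.Agent.GR.H.Final

/-!
# Project GS: S34 and S35 from the two remaining inputs `InstOut` (GS-INST), `BridgeOut` (GS-BRIDGE)
-/

set_option autoImplicit false

open Polynomial IsLocalRing

namespace Fermat.Agent.GS

open Fermat.Agent.GR Fermat.Agent.GR.H Fermat.Agent.GR.I

theorem Top_inputGR : FW.InputGR := by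
  intro N _
  let ι : Qbar →+* ℂ := (IsAlgClosed.lift (R := ℚ) (S := Qbar) (M := ℂ)).toRingHom
  exact ⟨cruxAll_of_modelExists GR.D.Top.modelExists N,
    (charTheory N).toKummerData ι, B.heckeLam_injective N⟩

theorem Top_inputU (hI : InstOut) (hB : BridgeOut) : FW.InputU := inputU hI hB

theorem Top_inputK (hI : InstOut) (hB : BridgeOut) : FW.InputK := inputK hI hB

/-- S34 from `InstOut`, `BridgeOut`. -/
theorem S34_of_inst_bridge (hI : InstOut) (hB : BridgeOut)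
    {𝒪 : Type} [CommRing 𝒪] [IsDomain 𝒪] [IsDiscreteValuationRing 𝒪]
    [IsAdicComplete (maximalIdeal 𝒪) 𝒪] [Finite (ResidueField 𝒪)] [CharZero 𝒪]
    {p : ℕ} (hp : p.Prime) (hp𝒪 : (p : 𝒪) ∈ maximalIdeal 𝒪)
    {N : ℕ} [NeZero N] {S : Finset ℕ} (hpS : p ∈ S) (hNS : ∀ q : ℕ, q.Prime → q ∣ N → q ∈ S)
    {θ : CuspForm.heckeAlgebra N 2 (↑S : Set ℕ) →+* ResidueField 𝒪}
    {T : Type} [CommRing T] [IsLocalRing T] [IsNoetherianRing T]
    [IsAdicComplete (maximalIdeal T) T] [Algebra 𝒪 T] [IsLocalHom (algebraMap 𝒪 T)]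
    [Module.Finite 𝒪 T] [Module.Free 𝒪 T]
    (H : CuspForm.HeckeGaloisRepDatum N (↑S : Set ℕ) 𝒪 θ T)
    (q : ℕ) (hq : q.Prime) (hqp : q ≠ p) (hqN : q ∣ N) (hq2 : ¬ q ^ 2 ∣ N) :
    H.ρ.IsUnipotentOnInertiaAt q := by
  obtain ⟨D, hinj, hU, -⟩ :=
    FW.exists_tateData_ss (Top_inputU hI hB) (Top_inputK hI hB) Top_inputGR N p hp
  exact FW.isUnipotentOnInertiaAt_of_tateData hp D hinj hp𝒪 hpS hNS H q hq hqp
    (hU q hq hqp hqN hq2)

/-- S35 from `InstOut`, `BridgeOut`. -/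
theorem S35_of_inst_bridge (hI : InstOut) (hB : BridgeOut)
    {M : ℕ} [NeZero M] {g : CuspForm (CongruenceSubgroup.Gamma0 M) 2} (hg : g.IsNewform)
    (lam : ℕ) [Fact lam.Prime]
    (S : Finset ℕ)
    (O' : Type) [CommRing O'] [IsDomain O'] [IsDiscreteValuationRing O']
    [IsAdicComplete (IsLocalRing.maximalIdeal O') O'] [Finite (IsLocalRing.ResidueField O')]
    [CharZero O'] (hlamO' : (lam : O') ∈ IsLocalRing.maximalIdeal O')
    (chig : CuspForm.heckeAlgebra M 2 (↑S : Set ℕ) →+* ℂ)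
    (hchig : ∀ (ℓ : ℕ) (hℓ : ℓ.Prime) (hℓM : ¬ ℓ ∣ M) (hℓS : ℓ ∉ (↑S : Set ℕ)),
      chig (CuspForm.heckeAlgebra.T hℓ hℓM hℓS) = ModularFormClass.qCoeff g ℓ)
    (iota : chig.range →+* O')
    (hlamS : lam ∈ S) (hMS : ∀ q : ℕ, q.Prime → q ∣ M → q ∈ S) :
    ∃ (O'' : Type) (_ : CommRing O'') (_ : IsDomain O'') (_ : IsDiscreteValuationRing O'')
      (_ : IsAdicComplete (IsLocalRing.maximalIdeal O'') O'') (_ : Finite (IsLocalRing.ResidueField O''))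
      (_ : CharZero O'') (_ : Algebra O' O'') (_ : Module.Finite O' O'') (_ : IsLocalHom (algebraMap O' O'')),
      Function.Injective (algebraMap O' O'') ∧
      ∃ ρ : GaloisRepAdic O'',
        (∀ (ℓ : ℕ) (hℓ : ℓ.Prime) (hℓM : ¬ ℓ ∣ M) (hℓS : ℓ ∉ (↑S : Set ℕ)),
          ∀ A : ValuationSubring (AlgebraicClosure ℚ), A.LiesOverPrime ℓ →
            ∀ σ : AlgebraicClosure ℚ ≃ₐ[ℚ] AlgebraicClosure ℚ, A.IsFrobeniusAt σ ℓ →
              LinearMap.charpoly (ρ.ρ σ) =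
                X ^ 2 - C (algebraMap O' O'' ((iota.comp chig.rangeRestrict) (CuspForm.heckeAlgebra.T hℓ hℓM hℓS))) * X
                  + C ((ℓ : O''))) ∧
        (∀ q : ℕ, q.Prime → q ≠ lam → q ∣ M → ¬ q ^ 2 ∣ M →
          ∀ A : ValuationSubring (AlgebraicClosure ℚ), A.LiesOverPrime q →
            ∀ σ : AlgebraicClosure ℚ ≃ₐ[ℚ] AlgebraicClosure ℚ, A.IsFrobeniusAt σ q →
              LinearMap.charpoly (ρ.ρ σ) = X ^ 2 - C ((q : O'') + 1) * X + C ((q : O'')) ∨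
              LinearMap.charpoly (ρ.ρ σ) = X ^ 2 + C ((q : O'') + 1) * X + C ((q : O''))) := by
  obtain ⟨D, -, -, hF⟩ :=
    FW.exists_tateData_ss (Top_inputU hI hB) (Top_inputK hI hB) Top_inputGR M lam Fact.out
  exact FW.S35_of GR.H.frobeniusDensity hg.1
    (fun q hq hqM hq2 => AL.qCoeff_sq_eq_one hg hq hqM hq2) lam D hF S O' hlamO' chig hchig iota
    hlamS hMS

end Fermat.Agent.GS
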